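import Mathlib
import Fermat.Prelude.Def_EllipticCurve_FrobeniusTrace

set_option autoImplicit false

namespace Fermat.Agent.S54

open Polynomial
open scoped Pointwise

theorem isAlgebraicQbar : Algebra.IsAlgebraic ℚ (AlgebraicClosure ℚ) :=
  AlgebraicClosure.isAlgebraic ℚ

theorem isAlgClosureQbar : IsAlgClosure ℚ (AlgebraicClosure ℚ) :=
  haveI := isAlgebraicQbar
  ⟨inferInstance, inferInstance⟩

theorem normalQbar : Normal ℚ (AlgebraicClosure ℚ) :=
  haveI := isAlgClosureQbar
  IsAlgClosure.normal ℚ (AlgebraicClosure ℚ)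

theorem isGaloisQbar : IsGalois ℚ (AlgebraicClosure ℚ) :=
  haveI := isAlgebraicQbar
  haveI := normalQbar
  { }

attribute [local instance] isAlgebraicQbar isAlgClosureQbar normalQbar isGaloisQbar

/-- The Galois group acts on the ring of algebraic integers. -/
@[instance_reducible]
noncomputable def algIntAction :
    MulSemiringAction (AlgebraicClosure ℚ ≃ₐ[ℚ] AlgebraicClosure ℚ)
      (integralClosure ℤ (AlgebraicClosure ℚ)) where
  smul g x := ⟨g x.1, map_isIntegral_int g x.2⟩
  one_smul _ := Subtype.ext rfl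
  mul_smul _ _ _ := Subtype.ext rfl
  smul_zero g := Subtype.ext (map_zero g)
  smul_add g _ _ := Subtype.ext (map_add g _ _)
  smul_one g := Subtype.ext (map_one g)
  smul_mul g _ _ := Subtype.ext (map_mul g _ _)

attribute [local instance] algIntAction

theorem algIntAction_coe (g : AlgebraicClosure ℚ ≃ₐ[ℚ] AlgebraicClosure ℚ)
    (x : integralClosure ℤ (AlgebraicClosure ℚ)) :
    ((g • x : integralClosure ℤ (AlgebraicClosure ℚ)) : AlgebraicClosure ℚ) = g x.1 := rfl

theorem algInt_smulCommClass :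
    SMulCommClass (AlgebraicClosure ℚ ≃ₐ[ℚ] AlgebraicClosure ℚ) ℤ
      (integralClosure ℤ (AlgebraicClosure ℚ)) where
  smul_comm g n x := Subtype.ext (by
    show g ((n • x : integralClosure ℤ (AlgebraicClosure ℚ)) : AlgebraicClosure ℚ) = _
    simp)

theorem algInt_isInvariant :
    Algebra.IsInvariant ℤ (integralClosure ℤ (AlgebraicClosure ℚ))
      (AlgebraicClosure ℚ ≃ₐ[ℚ] AlgebraicClosure ℚ) where
  isInvariant b hb := by
    have h1 : (b : AlgebraicClosure ℚ) ∈ (⊥ : IntermediateField ℚ (AlgebraicClosure ℚ)) := by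
      rw [InfiniteGalois.mem_bot_iff_fixed]
      intro f
      exact congrArg Subtype.val (hb f)
    rw [IntermediateField.mem_bot] at h1
    obtain ⟨q, hq⟩ := h1
    have h2 : IsIntegral ℤ q := by
      have := b.2
      rw [← hq] at this
      exact (isIntegral_algebraMap_iff (FaithfulSMul.algebraMap_injective ℚ (AlgebraicClosure ℚ))).mp this
    obtain ⟨a, ha⟩ := IsIntegrallyClosed.algebraMap_eq_of_integral h2
    refine ⟨a, Subtype.ext ?_⟩
    rw [← hq, ← ha]
    simp

/-- The discrete topology on the ring of algebraic integers. -/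
@[instance_reducible]
def algIntTopology : TopologicalSpace (integralClosure ℤ (AlgebraicClosure ℚ)) := ⊥

attribute [local instance] algIntTopology

theorem algInt_discreteTopology : DiscreteTopology (integralClosure ℤ (AlgebraicClosure ℚ)) :=
  ⟨rfl⟩

attribute [local instance] algInt_discreteTopology algInt_smulCommClass algInt_isInvariant

theorem algInt_continuousSMul :
    ContinuousSMul (AlgebraicClosure ℚ ≃ₐ[ℚ] AlgebraicClosure ℚ)
      (integralClosure ℤ (AlgebraicClosure ℚ)) := by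
  rw [continuousSMul_iff_stabilizer_isOpen]
  intro x
  have h := stabilizer_isOpen_of_isIntegral (K := ℚ) (L := AlgebraicClosure ℚ) x.1
  convert h using 1
  ext g
  simp only [SetLike.mem_coe, MulAction.mem_stabilizer_iff]
  constructor
  · intro hg
    exact congrArg Subtype.val hg
  · intro hg
    exact Subtype.ext hg

attribute [local instance] algInt_continuousSMul

/-- Algebraic integers lie in every valuation subring. -/
theorem mem_valuationSubring_of_isIntegral (v : ValuationSubring (AlgebraicClosure ℚ))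
    {x : AlgebraicClosure ℚ} (hx : IsIntegral ℤ x) : x ∈ v := by
  have h1 : IsIntegral v x := hx.tower_top
  obtain ⟨y, hy⟩ := (IsIntegrallyClosed.isIntegral_iff (R := v) (K := AlgebraicClosure ℚ)).mp h1
  rw [← hy]
  exact y.2

/-- The inclusion of the algebraic integers into a valuation subring. -/
noncomputable def toVal (v : ValuationSubring (AlgebraicClosure ℚ)) :
    integralClosure ℤ (AlgebraicClosure ℚ) →+* v where
  toFun x := ⟨x.1, mem_valuationSubring_of_isIntegral v x.2⟩
  map_one' := rfl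
  map_mul' _ _ := rfl
  map_zero' := rfl
  map_add' _ _ := rfl

theorem toVal_coe (v : ValuationSubring (AlgebraicClosure ℚ))
    (x : integralClosure ℤ (AlgebraicClosure ℚ)) : ((toVal v x : v) : AlgebraicClosure ℚ) = x.1 :=
  rfl

/-- The centre of a valuation subring on the algebraic integers. -/
noncomputable def centre (v : ValuationSubring (AlgebraicClosure ℚ)) :
    Ideal (integralClosure ℤ (AlgebraicClosure ℚ)) :=
  (IsLocalRing.maximalIdeal v).comap (toVal v)

theorem centre_isPrime (v : ValuationSubring (AlgebraicClosure ℚ)) : (centre v).IsPrime :=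
  Ideal.comap_isPrime _ _

theorem mem_centre_iff (v : ValuationSubring (AlgebraicClosure ℚ))
    (x : integralClosure ℤ (AlgebraicClosure ℚ)) :
    x ∈ centre v ↔ toVal v x ∈ IsLocalRing.maximalIdeal v := Iff.rfl

theorem exists_unit_mul_isIntegral_aux (v : ValuationSubring (AlgebraicClosure ℚ))
    (x : AlgebraicClosure ℚ) (hx : x ∈ v)
    (f : (integralClosure ℤ (AlgebraicClosure ℚ))[X]) (hf : aeval x f = 0)
    (n : ℕ) (hfn : f.coeff n ∉ centre v) :
    ∃ s : integralClosure ℤ (AlgebraicClosure ℚ), s ∉ centre v ∧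
      IsIntegral ℤ ((s : AlgebraicClosure ℚ) * x) := by
  induction hm : f.natDegree using Nat.strong_induction_on generalizing f n with | h m IH =>
  obtain (_ | m) := m
  · obtain ⟨r, rfl⟩ := natDegree_eq_zero.mp hm
    exfalso
    apply hfn
    have hr : r = 0 := by
      have : (r : AlgebraicClosure ℚ) = 0 := by simpa using hf
      exact Subtype.ext this
    subst hr
    simp
  have hint : IsIntegral ℤ (f.leadingCoeff • x) :=
    isIntegral_trans _ (isIntegral_leadingCoeff_smul f x hf)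
  by_cases Hfp : f.leadingCoeff ∈ centre v
  · let a : integralClosure ℤ (AlgebraicClosure ℚ) := ⟨f.leadingCoeff • x, hint⟩
    have ha : a ∈ centre v := by
      rw [mem_centre_iff] at Hfp ⊢
      have : toVal v a = toVal v f.leadingCoeff * ⟨x, hx⟩ := Subtype.ext (by
        simp [toVal_coe, a, Algebra.smul_def])
      rw [this]
      exact Ideal.mul_mem_right _ _ Hfp
    refine IH _ ?_ (f.eraseLead + C a * X ^ m) ?_ n ?_ rfl
    · suffices f.eraseLead.natDegree ≤ m by compute_degree!
      exact (eraseLead_natDegree_le ..).trans (by lia)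
    · simp [← self_sub_monomial_natDegree_leadingCoeff, hf, hm, pow_succ', a, Algebra.smul_def]
      ring
    · have hne : n ≠ f.natDegree := by
        rintro rfl
        exact hfn Hfp
      have : (f.eraseLead + C a * X ^ m).coeff n = f.coeff n + (if n = m then a else 0) := by
        simp [eraseLead_coeff, hne]
      rw [this]
      intro h
      apply hfn
      split_ifs at h
      · exact (Ideal.add_mem_iff_left _ ha).mp h
      · simpa using h
  · exact ⟨f.leadingCoeff, Hfp, by simpa [Algebra.smul_def] using hint⟩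

theorem intCast_notMem_centre (v : ValuationSubring (AlgebraicClosure ℚ)) (ℓ : ℕ) (hℓ : ℓ.Prime)
    (hv : v.LiesOverPrime ℓ) (c : ℤ) (hc : ¬ (ℓ : ℤ) ∣ c) :
    algebraMap ℤ (integralClosure ℤ (AlgebraicClosure ℚ)) c ∉ centre v := by
  intro h
  rw [mem_centre_iff] at h
  have hℓ' : toVal v (algebraMap ℤ (integralClosure ℤ (AlgebraicClosure ℚ)) (ℓ : ℤ)) ∈
      IsLocalRing.maximalIdeal v := by
    rw [← ValuationSubring.coe_mem_nonunits_iff]
    have : (ℓ : AlgebraicClosure ℚ) ∈ v.nonunits := hv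
    simpa [toVal_coe] using this
  have hcop : IsCoprime (ℓ : ℤ) c := (Nat.prime_iff_prime_int.mp hℓ).coprime_iff_not_dvd.mpr hc
  obtain ⟨a, b, hab⟩ := hcop
  have h1 : (1 : v) ∈ IsLocalRing.maximalIdeal v := by
    have := Ideal.add_mem _ (Ideal.mul_mem_left _
      (toVal v (algebraMap ℤ (integralClosure ℤ (AlgebraicClosure ℚ)) a)) hℓ')
      (Ideal.mul_mem_left _ (toVal v (algebraMap ℤ (integralClosure ℤ (AlgebraicClosure ℚ)) b)) h)
    simp only [← map_mul, ← map_add, hab, map_one] at this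
    exact this
  exact (IsLocalRing.maximalIdeal.isMaximal v).ne_top ((Ideal.eq_top_iff_one _).mpr h1)

theorem exists_unit_mul_isIntegral (v : ValuationSubring (AlgebraicClosure ℚ)) (ℓ : ℕ)
    (hℓ : ℓ.Prime) (hv : v.LiesOverPrime ℓ) (x : AlgebraicClosure ℚ) (hx : x ∈ v) :
    ∃ s : integralClosure ℤ (AlgebraicClosure ℚ), s ∉ centre v ∧
      IsIntegral ℤ ((s : AlgebraicClosure ℚ) * x) := by
  have halg : IsAlgebraic ℤ x :=
    (IsFractionRing.isAlgebraic_iff ℤ ℚ (AlgebraicClosure ℚ)).mpr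
      (Algebra.IsAlgebraic.isAlgebraic x)
  obtain ⟨p, hp0, hpx⟩ := halg
  have hprim : p.primPart.IsPrimitive := p.isPrimitive_primPart
  have hpx' : aeval x p.primPart = 0 := by
    have h1 := hpx
    rw [p.eq_C_content_mul_primPart, map_mul, aeval_C] at h1
    rcases mul_eq_zero.mp h1 with h2 | h2
    · exfalso
      have : p.content = 0 := by simpa using h2
      exact hp0 (Polynomial.content_eq_zero_iff.mp this)
    · exact h2
  have hex : ∃ i, ¬ (ℓ : ℤ) ∣ p.primPart.coeff i := by
    by_contra hcon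
    push Not at hcon
    have hdvd : C (ℓ : ℤ) ∣ p.primPart := (Polynomial.C_dvd_iff_dvd_coeff _ _).mpr hcon
    have hu := hprim _ hdvd
    exact (Nat.prime_iff_prime_int.mp hℓ).not_isUnit hu
  obtain ⟨i, hi⟩ := hex
  refine exists_unit_mul_isIntegral_aux v x hx
    (p.primPart.map (algebraMap ℤ (integralClosure ℤ (AlgebraicClosure ℚ)))) ?_ i ?_
  · rw [aeval_map_algebraMap]
    exact hpx'
  · rw [coeff_map]
    exact intCast_notMem_centre v ℓ hℓ hv _ hi

theorem natCast_mem_centre (v : ValuationSubring (AlgebraicClosure ℚ)) (ℓ : ℕ)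
    (hv : v.LiesOverPrime ℓ) :
    ((ℓ : ℕ) : integralClosure ℤ (AlgebraicClosure ℚ)) ∈ centre v := by
  rw [mem_centre_iff, ← ValuationSubring.coe_mem_nonunits_iff]
  have : (ℓ : AlgebraicClosure ℚ) ∈ v.nonunits := hv
  simpa [toVal_coe] using this

theorem frobenius_bijective_quotient_centre (v : ValuationSubring (AlgebraicClosure ℚ)) (ℓ : ℕ)
    [Fact ℓ.Prime] [CharP (integralClosure ℤ (AlgebraicClosure ℚ) ⧸ centre v) ℓ]
    [(centre v).IsPrime] :
    Function.Bijective (frobenius (integralClosure ℤ (AlgebraicClosure ℚ) ⧸ centre v) ℓ) := by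
  let _ : Algebra (ZMod ℓ) (integralClosure ℤ (AlgebraicClosure ℚ) ⧸ centre v) := ZMod.algebra _ ℓ
  have : IsScalarTower ℤ (ZMod ℓ) (integralClosure ℤ (AlgebraicClosure ℚ) ⧸ centre v) :=
    IsScalarTower.of_algebraMap_eq' (Subsingleton.elim _ _)
  have : Algebra.IsIntegral (ZMod ℓ) (integralClosure ℤ (AlgebraicClosure ℚ) ⧸ centre v) :=
    ⟨fun y => (Algebra.IsIntegral.isIntegral (R := ℤ) y).tower_top⟩
  let _ : Field (integralClosure ℤ (AlgebraicClosure ℚ) ⧸ centre v) :=
    (isField_of_isIntegral_of_isField' (R := ZMod ℓ) (Field.toIsField _)).toField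
  have : PerfectField (integralClosure ℤ (AlgebraicClosure ℚ) ⧸ centre v) :=
    Algebra.IsAlgebraic.perfectField (ZMod ℓ)
  have := PerfectField.toPerfectRing (K := integralClosure ℤ (AlgebraicClosure ℚ) ⧸ centre v) ℓ
  exact bijective_frobenius (integralClosure ℤ (AlgebraicClosure ℚ) ⧸ centre v) ℓ

theorem exists_frob_algInt (v : ValuationSubring (AlgebraicClosure ℚ)) (ℓ : ℕ) (hℓ : ℓ.Prime)
    (hv : v.LiesOverPrime ℓ) :
    ∃ g : AlgebraicClosure ℚ ≃ₐ[ℚ] AlgebraicClosure ℚ, g • centre v = centre v ∧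
      ∀ b : integralClosure ℤ (AlgebraicClosure ℚ), g • b - b ^ ℓ ∈ centre v := by
  have : (centre v).IsPrime := centre_isPrime v
  have : Fact ℓ.Prime := ⟨hℓ⟩
  have hℓQ : ((ℓ : ℕ) : (integralClosure ℤ (AlgebraicClosure ℚ)) ⧸ centre v) = 0 := by
    have h := natCast_mem_centre v ℓ hv
    rw [← Ideal.Quotient.eq_zero_iff_mem] at h
    simpa using h
  have : CharP (integralClosure ℤ (AlgebraicClosure ℚ) ⧸ centre v) ℓ :=
    (CharP.charP_iff_prime_eq_zero hℓ).mpr hℓQ
  have hbij := frobenius_bijective_quotient_centre v ℓ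
  let F : (integralClosure ℤ (AlgebraicClosure ℚ) ⧸ centre v) →ₐ[ℤ ⧸ (centre v).under ℤ]
      (integralClosure ℤ (AlgebraicClosure ℚ) ⧸ centre v) :=
    { frobenius (integralClosure ℤ (AlgebraicClosure ℚ) ⧸ centre v) ℓ with
      commutes' := by
        intro r
        obtain ⟨n, rfl⟩ := Ideal.Quotient.mk_surjective r
        have h1 : algebraMap (ℤ ⧸ (centre v).under ℤ)
            (integralClosure ℤ (AlgebraicClosure ℚ) ⧸ centre v)
            (Ideal.Quotient.mk ((centre v).under ℤ) n) =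
            ((n : ℤ) : integralClosure ℤ (AlgebraicClosure ℚ) ⧸ centre v) := by
          rw [Ideal.Quotient.algebraMap_mk_of_liesOver]
          simp
        simp only [RingHom.toMonoidHom_eq_coe, OneHom.toFun_eq_coe, MonoidHom.toOneHom_coe,
          MonoidHom.coe_coe]
        rw [h1, map_intCast] }
  obtain ⟨g, hg⟩ := Ideal.Quotient.stabilizerHom_surjective_of_profinite
    (G := AlgebraicClosure ℚ ≃ₐ[ℚ] AlgebraicClosure ℚ) ((centre v).under ℤ) (centre v)
    (AlgEquiv.ofBijective F hbij)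
  refine ⟨g.1, g.2, fun b => ?_⟩
  have h2 := DFunLike.congr_fun hg (Ideal.Quotient.mk (centre v) b)
  rw [Ideal.Quotient.stabilizerHom_apply] at h2
  have h3 : (AlgEquiv.ofBijective F hbij) (Ideal.Quotient.mk (centre v) b) =
      Ideal.Quotient.mk (centre v) (b ^ ℓ) := by
    rw [AlgEquiv.ofBijective_apply]
    show frobenius _ ℓ _ = _
    rw [frobenius_def, map_pow]
  rw [h3] at h2
  exact Ideal.Quotient.eq.mp h2

theorem smul_mem_valuationSubring (v : ValuationSubring (AlgebraicClosure ℚ)) (ℓ : ℕ)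
    (hℓ : ℓ.Prime) (hv : v.LiesOverPrime ℓ)
    (h : AlgebraicClosure ℚ ≃ₐ[ℚ] AlgebraicClosure ℚ) (hh : h • centre v = centre v)
    (x : AlgebraicClosure ℚ) (hx : x ∈ v) : h x ∈ v := by
  obtain ⟨s, hs, hsx⟩ := exists_unit_mul_isIntegral v ℓ hℓ hv x hx
  have hs' : h • s ∉ centre v := by
    intro hmem
    apply hs
    rw [← hh] at hmem
    exact Ideal.smul_mem_pointwise_smul_iff.mp hmem
  have hunit : IsUnit (toVal v (h • s)) := by
    rw [mem_centre_iff] at hs'
    exact IsLocalRing.notMem_maximalIdeal.mp hs'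
  obtain ⟨u, hu⟩ := hunit
  have hb : h ((s : AlgebraicClosure ℚ) * x) ∈ v :=
    mem_valuationSubring_of_isIntegral v (map_isIntegral_int h hsx)
  have hu' : ((u : v) : AlgebraicClosure ℚ) = h (s : AlgebraicClosure ℚ) := by
    rw [hu]; rfl
  have hne : h (s : AlgebraicClosure ℚ) ≠ 0 := by
    rw [← hu']
    intro h0
    have : (u : v) = 0 := Subtype.ext h0
    exact u.ne_zero this
  have key : h x = (((u⁻¹ : (v)ˣ) : v) : AlgebraicClosure ℚ) * h ((s : AlgebraicClosure ℚ) * x) := by
    have hinv : (((u⁻¹ : (v)ˣ) : v) : AlgebraicClosure ℚ) * h (s : AlgebraicClosure ℚ) = 1 := by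
      rw [← hu']
      have h1 : (((u⁻¹ : (v)ˣ) : v) * (u : v) : v) = 1 := Units.inv_mul u
      have h2 := congrArg (Subtype.val) h1
      exact h2
    rw [map_mul, ← mul_assoc, hinv, one_mul]
  rw [key]
  exact v.mul_mem _ _ (SetLike.coe_mem _) hb

/-- Existence of Frobenius elements at any place of the algebraic closure of the rationals. -/
theorem exists_isFrobeniusAt_of_liesOverPrime (v : ValuationSubring (AlgebraicClosure ℚ)) (ℓ : ℕ)
    (hℓ : ℓ.Prime) (hv : v.LiesOverPrime ℓ) :
    ∃ σ : AlgebraicClosure ℚ ≃ₐ[ℚ] AlgebraicClosure ℚ, v.IsFrobeniusAt σ ℓ := by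
  obtain ⟨g, hgQ, hgb⟩ := exists_frob_algInt v ℓ hℓ hv
  have hg_inv : g⁻¹ • centre v = centre v := by rw [inv_smul_eq_iff, hgQ]
  have hmem : g ∈ v.decompositionSubgroup ℚ := by
    rw [MulAction.mem_stabilizer_iff]
    apply SetLike.ext
    intro x
    rw [ValuationSubring.mem_pointwise_smul_iff_inv_smul_mem]
    constructor
    · intro hx
      have := smul_mem_valuationSubring v ℓ hℓ hv g hgQ _ hx
      simpa using this
    · intro hx
      exact smul_mem_valuationSubring v ℓ hℓ hv g⁻¹ hg_inv x hx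
  refine ⟨g, hmem, ?_⟩
  intro y
  obtain ⟨a, rfl⟩ := IsLocalRing.residue_surjective y
  rw [← IsLocalRing.ResidueField.residue_smul, ← map_pow]
  apply Ideal.Quotient.eq.mpr
  obtain ⟨s, hs, hsa⟩ := exists_unit_mul_isIntegral v ℓ hℓ hv a a.2
  set G : v.decompositionSubgroup ℚ := ⟨g, hmem⟩ with hG
  let b : integralClosure ℤ (AlgebraicClosure ℚ) := ⟨(s : AlgebraicClosure ℚ) * a, hsa⟩
  have hb' : toVal v b = toVal v s * a := Subtype.ext rfl
  have e1 : G • toVal v b - (toVal v b) ^ ℓ ∈ IsLocalRing.maximalIdeal v := by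
    have h1 := hgb b
    rw [mem_centre_iff] at h1
    have h2 : toVal v (g • b - b ^ ℓ) = G • toVal v b - (toVal v b) ^ ℓ := Subtype.ext rfl
    rw [← h2]
    exact h1
  have e2 : G • toVal v s - (toVal v s) ^ ℓ ∈ IsLocalRing.maximalIdeal v := by
    have h1 := hgb s
    rw [mem_centre_iff] at h1
    have h2 : toVal v (g • s - s ^ ℓ) = G • toVal v s - (toVal v s) ^ ℓ := Subtype.ext rfl
    rw [← h2]
    exact h1
  have hunit : G • toVal v s ∉ IsLocalRing.maximalIdeal v := by
    intro hmem'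
    apply hs
    rw [mem_centre_iff]
    have h3 : (toVal v s) ^ ℓ ∈ IsLocalRing.maximalIdeal v := by
      have := Ideal.sub_mem _ hmem' e2
      simpa using this
    exact Ideal.IsPrime.mem_of_pow_mem inferInstance _ h3
  have hprod : (G • toVal v s) * (G • a - a ^ ℓ) ∈ IsLocalRing.maximalIdeal v := by
    have h4 : (G • toVal v s) * (G • a - a ^ ℓ) =
        (G • toVal v b - (toVal v b) ^ ℓ) - (G • toVal v s - (toVal v s) ^ ℓ) * a ^ ℓ := by
      rw [hb', smul_mul']
      ring
    rw [h4]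
    exact Ideal.sub_mem _ e1 (Ideal.mul_mem_right _ _ e2)
  exact (Ideal.IsPrime.mem_or_mem inferInstance hprod).resolve_left hunit

/-- Every prime has a place of the algebraic closure of the rationals above it. -/
theorem exists_liesOverPrime (ℓ : ℕ) (hℓ : ℓ.Prime) :
    ∃ v : ValuationSubring (AlgebraicClosure ℚ), v.LiesOverPrime ℓ := by
  let A : Subring (AlgebraicClosure ℚ) := (algebraMap ℤ (AlgebraicClosure ℚ)).range
  let l : A := ⟨(ℓ : AlgebraicClosure ℚ), ⟨(ℓ : ℤ), by simp⟩⟩
  have hI : Ideal.span {l} ≠ ⊤ := by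
    intro h
    rw [Ideal.span_singleton_eq_top] at h
    obtain ⟨u, hu⟩ := h.exists_right_inv
    obtain ⟨n, hn⟩ := u.2
    have h1 : ((ℓ : AlgebraicClosure ℚ)) * (u : AlgebraicClosure ℚ) = 1 := congrArg Subtype.val hu
    rw [← hn] at h1
    have h2 : ((ℓ : ℤ) * n : ℤ) = 1 := by
      have : (((ℓ : ℤ) * n : ℤ) : AlgebraicClosure ℚ) = ((1 : ℤ) : AlgebraicClosure ℚ) := by
        push_cast
        simpa using h1
      exact_mod_cast this
    have h3 : IsUnit (ℓ : ℤ) := IsUnit.of_mul_eq_one _ h2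
    exact (Nat.prime_iff_prime_int.mp hℓ).not_isUnit h3
  obtain ⟨B, -, hB⟩ := Ideal.image_subset_nonunits_valuationSubring _ hI
  exact ⟨B, hB ⟨l, Ideal.subset_span rfl, rfl⟩⟩

/-- Existence of Frobenius elements. -/
theorem exists_isFrobeniusAt (ℓ : ℕ) (hℓ : ℓ.Prime) :
    ∃ (v : ValuationSubring (AlgebraicClosure ℚ))
      (σ : AlgebraicClosure ℚ ≃ₐ[ℚ] AlgebraicClosure ℚ),
      v.LiesOverPrime ℓ ∧ v.IsFrobeniusAt σ ℓ := by
  obtain ⟨v, hv⟩ := exists_liesOverPrime ℓ hℓ
  obtain ⟨σ, hσ⟩ := exists_isFrobeniusAt_of_liesOverPrime v ℓ hℓ hv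
  exact ⟨v, σ, hv, hσ⟩

end Fermat.Agent.S54
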