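import Fermat.Statements.S54

set_option autoImplicit false
open GaloisRep GaloisRep.DeformationRingData Polynomial

namespace Fermat.Agent.S54

theorem h88_charpoly_eq_map_of_equiv {A B : Type} [CommRing A] [IsLocalRing A] [CommRing B]
    [IsLocalRing B] (φ : A →+* B) (hφ : IsLocalHom φ) (ρ : GaloisRepAdic A) (ρ' : GaloisRepAdic B)
    (h : (ρ.baseChangeAlong φ hφ).IsEquiv ρ')
    (σ : AlgebraicClosure ℚ ≃ₐ[ℚ] AlgebraicClosure ℚ) :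
    LinearMap.charpoly (ρ'.ρ σ) = (LinearMap.charpoly (ρ.ρ σ)).map φ := by
  obtain ⟨e⟩ := h
  let _ : Algebra A B := φ.toAlgebra
  have h1 : ρ'.ρ σ = e.toLinearEquiv.conj ((ρ.baseChangeAlong φ hφ).ρ σ) := by
    ext x
    simp [LinearEquiv.conj_apply, e.map_apply]
  rw [h1, LinearEquiv.charpoly_conj]
  exact LinearMap.charpoly_baseChange (ρ.ρ σ) B

theorem h88_mem_range_of_charpoly {R T : Type} [CommRing R] [CommRing T] (φ : R →+* T)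
    (p : R[X]) (a b : T) (h : p.map φ = X ^ 2 - C a * X + C b) : a ∈ φ.range := by
  have h1 : (p.map φ).coeff 1 = -a := by
    rw [h]
    simp [coeff_X_pow, coeff_C]
  rw [coeff_map] at h1
  exact ⟨-p.coeff 1, by rw [map_neg, h1, neg_neg]⟩

theorem h88_range_pi_le {N : ℕ} [NeZero N] {S : Set ℕ} {T : Type} [CommRing T]
    (π : CuspForm.heckeAlgebra N 2 S →+* T) (B : Subring T)
    (hS : ∀ q : ℕ, q.Prime → q ∣ N → q ∈ S)
    (hT : ∀ (ℓ : ℕ) (hℓ : ℓ.Prime) (hℓN : ¬ ℓ ∣ N) (hℓS : ℓ ∉ S),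
      π (CuspForm.heckeAlgebra.T hℓ hℓN hℓS) ∈ B)
    (t : CuspForm.heckeAlgebra N 2 S) : π t ∈ B := by
  obtain ⟨x, hx⟩ := t
  induction hx using Algebra.adjoin_induction with
  | mem x hx =>
    rcases hx with ⟨ℓ, hℓ, hℓN, hℓS, rfl⟩ | ⟨q, hqN, hq, hqS, rfl⟩
    · exact hT ℓ hℓ hℓN hℓS
    · exact absurd (hS q hq hqN) hqS
  | algebraMap r =>
    have : (⟨algebraMap ℤ _ r, Subalgebra.algebraMap_mem _ r⟩ : CuspForm.heckeAlgebra N 2 S)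
        = (r : CuspForm.heckeAlgebra N 2 S) := by
      apply Subtype.ext
      simp
    rw [this, map_intCast]
    exact intCast_mem B r
  | add x y hx hy ihx ihy =>
    have : (⟨x + y, add_mem hx hy⟩ : CuspForm.heckeAlgebra N 2 S) = ⟨x, hx⟩ + ⟨y, hy⟩ := rfl
    rw [this, map_add]
    exact add_mem ihx ihy
  | mul x y hx hy ihx ihy =>
    have : (⟨x * y, mul_mem hx hy⟩ : CuspForm.heckeAlgebra N 2 S) = ⟨x, hx⟩ * ⟨y, hy⟩ := rfl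
    rw [this, map_mul]
    exact mul_mem ihx ihy

theorem result_of_exists_frob
    (hfrob : ∀ ℓ : ℕ, ℓ.Prime → ∃ (A : ValuationSubring (AlgebraicClosure ℚ))
      (σ : AlgebraicClosure ℚ ≃ₐ[ℚ] AlgebraicClosure ℚ), A.LiesOverPrime ℓ ∧ A.IsFrobeniusAt σ ℓ)
    {𝒪 : Type} [CommRing 𝒪] [IsDomain 𝒪] [IsDiscreteValuationRing 𝒪] [IsAdicComplete (IsLocalRing.maximalIdeal 𝒪) 𝒪] {ρbar : ResidualGaloisRep (IsLocalRing.ResidueField 𝒪)} {𝒟 : ∀ ⦃A : Type⦄ [CommRing A] [IsLocalRing A] [Algebra 𝒪 A], GaloisRepAdic A → Prop} (D : GaloisRep.DeformationRingData 𝒪 ρbar 𝒟) {N : ℕ} [NeZero N] {S : Set ℕ} {θ : CuspForm.heckeAlgebra N 2 S →+* IsLocalRing.ResidueField 𝒪} {T : Type} [CommRing T] [IsLocalRing T] [IsNoetherianRing T] [IsAdicComplete (IsLocalRing.maximalIdeal T) T] [Algebra 𝒪 T] [IsLocalHom (algebraMap 𝒪 T)] [Module.Finite 𝒪 T] [Module.Free 𝒪 T] (H : CuspForm.HeckeGaloisRepDatum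 N S 𝒪 θ T) (hS : ∀ q : ℕ, q.Prime → q ∣ N → q ∈ S) (h𝒟 : 𝒟 H.ρ) (hres : H.ρ.residual.IsEquiv (ρbar.baseChangeAlong (IsLocalRing.ResidueField.map (algebraMap 𝒪 T)))) : ∃ φ : D.R →ₐ[𝒪] T, Function.Surjective φ ∧ ∃ hφ : IsLocalHom (φ : D.R →+* T), (D.ρ.baseChangeAlong (φ : D.R →+* T) hφ).IsEquiv H.ρ := by
  obtain ⟨φ, ⟨hφ, hequiv⟩, -⟩ := D.universal T H.residue_surjective H.ρ h𝒟 hres
  refine ⟨φ, ?_, hφ, hequiv⟩
  have hT : ∀ (ℓ : ℕ) (hℓ : ℓ.Prime) (hℓN : ¬ ℓ ∣ N) (hℓS : ℓ ∉ S),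
      H.π (CuspForm.heckeAlgebra.T hℓ hℓN hℓS) ∈ (φ : D.R →+* T).range := by
    intro ℓ hℓ hℓN hℓS
    obtain ⟨A, σ, hA, hσ⟩ := hfrob ℓ hℓ
    have h1 := H.charpoly_frob ℓ hℓ hℓN hℓS A hA σ hσ
    rw [h88_charpoly_eq_map_of_equiv (φ : D.R →+* T) hφ D.ρ H.ρ hequiv σ] at h1
    exact h88_mem_range_of_charpoly _ _ _ _ h1
  have hrange : Set.range H.π ⊆ (φ.range : Set T) := by
    rintro _ ⟨t, rfl⟩
    exact h88_range_pi_le H.π (φ : D.R →+* T).range hS hT t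
  have htop : (⊤ : Subalgebra 𝒪 T) ≤ φ.range := by
    rw [← H.adjoin_range_π]
    exact Algebra.adjoin_le hrange
  intro y
  exact htop Algebra.mem_top

end Fermat.Agent.S54
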