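import Mathlib
import Fermat.Prelude.Def_FLTPrelim_Ramification

set_option autoImplicit false

namespace Fermat.Agent.S54

open scoped Pointwise

local instance h73_isAlgebraicQbar : Algebra.IsAlgebraic ℚ (AlgebraicClosure ℚ) :=
  AlgebraicClosure.isAlgebraic ℚ
local instance h73_isAlgClosureQbar : IsAlgClosure ℚ (AlgebraicClosure ℚ) :=
  ⟨inferInstance, inferInstance⟩

/-- The algebraic integers are invariant exactly on `ℤ`. -/
theorem h73_isInvariant :
    Algebra.IsInvariant ℤ (integralClosure ℤ (AlgebraicClosure ℚ))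
      (AlgebraicClosure ℚ ≃ₐ[ℚ] AlgebraicClosure ℚ) := by
  refine ⟨fun b hb => ?_⟩
  have hfix : ∀ f : AlgebraicClosure ℚ ≃ₐ[ℚ] AlgebraicClosure ℚ,
      f (b : AlgebraicClosure ℚ) = b := by
    intro f
    have := congrArg Subtype.val (hb f)
    simpa using this
  obtain ⟨q, hq⟩ := (InfiniteGalois.mem_range_algebraMap_iff_fixed (b : AlgebraicClosure ℚ)).mpr hfix
  have hint : IsIntegral ℤ (b : AlgebraicClosure ℚ) := b.2
  rw [← hq] at hint
  have hq' : IsIntegral ℤ q :=
    (isIntegral_algebraMap_iff (FaithfulSMul.algebraMap_injective ℚ (AlgebraicClosure ℚ))).mp hint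
  obtain ⟨a, ha⟩ := IsIntegrallyClosed.algebraMap_eq_of_integral hq'
  refine ⟨a, Subtype.ext ?_⟩
  rw [← hq, ← ha]
  simp

/-- An element integral over `ℤ` lies in every valuation subring. -/
theorem h73_integral_mem {K : Type*} [Field K] (A : ValuationSubring K) (b : K)
    (hb : IsIntegral ℤ b) : b ∈ A := by
  have h1 : IsIntegral A b := hb.tower_top
  obtain ⟨y, hy⟩ := IsIntegrallyClosed.isIntegral_iff.mp h1
  rw [← hy]
  exact y.2

/-- For a valuation subring `A` of `ℚ̄` over a prime `l` there is a Galois automorphism acting as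
the `l`-th power map modulo the maximal ideal of `A` on all algebraic integers. -/
theorem h73_exists_frob_int (l : ℕ) (hl : l.Prime) (A : ValuationSubring (AlgebraicClosure ℚ))
    (hA : A.LiesOverPrime l) :
    ∃ σ : AlgebraicClosure ℚ ≃ₐ[ℚ] AlgebraicClosure ℚ,
      ∀ b : AlgebraicClosure ℚ, IsIntegral ℤ b → σ b - b ^ l ∈ A.nonunits := by
  classical
  let _ : TopologicalSpace (integralClosure ℤ (AlgebraicClosure ℚ)) := ⊥
  have : DiscreteTopology (integralClosure ℤ (AlgebraicClosure ℚ)) := ⟨rfl⟩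
  have : ContinuousSMul (AlgebraicClosure ℚ ≃ₐ[ℚ] AlgebraicClosure ℚ)
      (integralClosure ℤ (AlgebraicClosure ℚ)) := by
    rw [continuousSMul_iff_stabilizer_isOpen]
    intro b
    have := stabilizer_isOpen_of_isIntegral (K := ℚ) (L := AlgebraicClosure ℚ)
      (b : AlgebraicClosure ℚ)
    convert this using 1
    ext g
    simp [MulAction.mem_stabilizer_iff, Subtype.ext_iff]
  have := h73_isInvariant
  let ι : integralClosure ℤ (AlgebraicClosure ℚ) →+* A :=
    { toFun := fun b => ⟨b, h73_integral_mem A b b.2⟩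
      map_one' := rfl
      map_mul' := fun _ _ => rfl
      map_zero' := rfl
      map_add' := fun _ _ => rfl }
  let Q : Ideal (integralClosure ℤ (AlgebraicClosure ℚ)) := (IsLocalRing.maximalIdeal A).comap ι
  have : Q.IsPrime := Ideal.comap_isPrime ι _
  let P : Ideal ℤ := Q.under ℤ
  have : Q.LiesOver P := ⟨rfl⟩
  have hmemQ : ∀ b : integralClosure ℤ (AlgebraicClosure ℚ),
      b ∈ Q ↔ (b : AlgebraicClosure ℚ) ∈ A.nonunits := by
    intro b
    rw [ValuationSubring.mem_nonunits_iff_exists_mem_maximalIdeal]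
    constructor
    · intro h
      exact ⟨h73_integral_mem A b b.2, h⟩
    · rintro ⟨_, h⟩
      exact h
  have hlQ : ((l : ℕ) : integralClosure ℤ (AlgebraicClosure ℚ)) ∈ Q := by
    rw [hmemQ]
    have h0 : (((l : ℕ) : integralClosure ℤ (AlgebraicClosure ℚ)) : AlgebraicClosure ℚ) =
        (l : AlgebraicClosure ℚ) := by simp
    rw [h0]
    exact hA
  have : Fact l.Prime := ⟨hl⟩
  have : CharP ((integralClosure ℤ (AlgebraicClosure ℚ)) ⧸ Q) l := by
    rw [CharP.charP_iff_prime_eq_zero hl]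
    rw [← map_natCast (Ideal.Quotient.mk Q), Ideal.Quotient.eq_zero_iff_mem]
    exact hlQ
  have hsurj : Function.Surjective (frobenius ((integralClosure ℤ (AlgebraicClosure ℚ)) ⧸ Q) l) := by
    intro x
    obtain ⟨b, rfl⟩ := Ideal.Quotient.mk_surjective x
    obtain ⟨c, hc⟩ := IsAlgClosed.exists_pow_nat_eq (b : AlgebraicClosure ℚ) hl.pos
    have hcint : IsIntegral ℤ c := IsIntegral.of_pow hl.pos (hc ▸ b.2)
    refine ⟨Ideal.Quotient.mk Q ⟨c, hcint⟩, ?_⟩
    rw [frobenius_def, ← map_pow]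
    congr 1
    exact Subtype.ext hc
  let φ₀ : ((integralClosure ℤ (AlgebraicClosure ℚ)) ⧸ Q) →ₐ[ℤ ⧸ P]
      ((integralClosure ℤ (AlgebraicClosure ℚ)) ⧸ Q) :=
    { toRingHom := frobenius ((integralClosure ℤ (AlgebraicClosure ℚ)) ⧸ Q) l
      commutes' := by
        intro r
        obtain ⟨n, rfl⟩ := Ideal.Quotient.mk_surjective r
        have : (Ideal.Quotient.mk P n : ℤ ⧸ P) = ((n : ℤ) : ℤ ⧸ P) := by simp
        rw [this]
        simp }
  let φ : ((integralClosure ℤ (AlgebraicClosure ℚ)) ⧸ Q) ≃ₐ[ℤ ⧸ P]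
      ((integralClosure ℤ (AlgebraicClosure ℚ)) ⧸ Q) :=
    AlgEquiv.ofBijective φ₀ ⟨frobenius_inj _ l, hsurj⟩
  obtain ⟨g, hg⟩ := Ideal.Quotient.stabilizerHom_surjective_of_profinite
    (G := AlgebraicClosure ℚ ≃ₐ[ℚ] AlgebraicClosure ℚ) P Q φ
  refine ⟨g.1, fun b hb => ?_⟩
  have h1 := DFunLike.congr_fun hg (Ideal.Quotient.mk Q ⟨b, hb⟩)
  rw [Ideal.Quotient.stabilizerHom_apply] at h1
  have h2 : φ (Ideal.Quotient.mk Q ⟨b, hb⟩) = Ideal.Quotient.mk Q (⟨b, hb⟩ ^ l) := by
    show frobenius _ l (Ideal.Quotient.mk Q ⟨b, hb⟩) = _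
    rw [frobenius_def, map_pow]
  rw [h2, Ideal.Quotient.eq, hmemQ] at h1
  have h3 : ((g • (⟨b, hb⟩ : integralClosure ℤ (AlgebraicClosure ℚ)) - ⟨b, hb⟩ ^ l :
      integralClosure ℤ (AlgebraicClosure ℚ)) : AlgebraicClosure ℚ) = g.1 b - b ^ l := rfl
  rw [h3] at h1
  exact h1

end Fermat.Agent.S54
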